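/-
helper19, P-CFT / FRAME row FR-API: concrete description of the homology of a cochain complex of
modules (`Fermat.Agent.H13.Cft.HomologyApiStatement`), with corollaries for level cohomology and
the linear map `ker d →ₗ Hⁿ`.
-/
import Fermat.Agent.H13.Cft.Interfaces

set_option autoImplicit false

universe u

open CategoryTheory

namespace Fermat.Agent.H19

open Fermat.Agent.H13.Cft

noncomputable section

section General

variable {k : Type u} [CommRing k] (K : CochainComplex (ModuleCat.{u} k) ℕ) (n : ℕ)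

theorem hapi_comp_apply {A B C : ModuleCat.{u} k} (f : A ⟶ B) (g : B ⟶ C) (h : A ⟶ C)
    (w : f ≫ g = h) (a : A) : g.hom (f.hom a) = h.hom a := by
  subst w; rfl

theorem hapi_iCycles_injective : Function.Injective (K.iCycles n).hom :=
  (ModuleCat.mono_iff_injective _).1 inferInstance

theorem hapi_homologyπ_surjective : Function.Surjective (K.homologyπ n).hom :=
  (ModuleCat.epi_iff_surjective _).1 inferInstance

theorem hapi_iCycles_cyclesMk (x : K.X n) (hx : (K.d n (n + 1)).hom x = 0) :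
    (K.iCycles n).hom (K.cyclesMk x (n + 1) (by simp) hx) = x :=
  K.i_cyclesMk x (n + 1) (by simp) hx

theorem hapi_d_iCycles (z : K.cycles n) : (K.d n (n + 1)).hom ((K.iCycles n).hom z) = 0 := by
  rw [hapi_comp_apply _ _ _ (K.iCycles_d n (n + 1)) z]
  rfl

theorem hapi_cyclesMk_iCycles (z : K.cycles n) :
    K.cyclesMk ((K.iCycles n).hom z) (n + 1) (by simp) (hapi_d_iCycles K n z) = z :=
  hapi_iCycles_injective K n (hapi_iCycles_cyclesMk K n _ _)

theorem hapi_cyclesMk_eq_iff (x : K.X n) (hx : (K.d n (n + 1)).hom x = 0) (z : K.cycles n) :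
    K.cyclesMk x (n + 1) (by simp) hx = z ↔ (K.iCycles n).hom z = x := by
  constructor
  · rintro rfl
    exact hapi_iCycles_cyclesMk K n x hx
  · intro h
    apply hapi_iCycles_injective K n
    rw [hapi_iCycles_cyclesMk, h]

/-- (1) Every class is the class of a cocycle. -/
theorem hapi_hMk_surjective (z : K.homology n) :
    ∃ (x : K.X n) (hx : (K.d n (n + 1)).hom x = 0), hMk K n x hx = z := by
  obtain ⟨c, rfl⟩ := hapi_homologyπ_surjective K n z
  refine ⟨(K.iCycles n).hom c, hapi_d_iCycles K n c, ?_⟩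
  unfold hMk
  rw [hapi_cyclesMk_iCycles]

/-- (2) `hMk` is additive. -/
theorem hapi_hMk_add (x y : K.X n) (hx : (K.d n (n + 1)).hom x = 0)
    (hy : (K.d n (n + 1)).hom y = 0) (hxy : (K.d n (n + 1)).hom (x + y) = 0) :
    hMk K n (x + y) hxy = hMk K n x hx + hMk K n y hy := by
  unfold hMk
  rw [← map_add]
  congr 1
  rw [hapi_cyclesMk_eq_iff, map_add, hapi_iCycles_cyclesMk, hapi_iCycles_cyclesMk]

/-- (3) `hMk` is homogeneous. -/
theorem hapi_hMk_smul (c : k) (x : K.X n) (hx : (K.d n (n + 1)).hom x = 0)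
    (hcx : (K.d n (n + 1)).hom (c • x) = 0) :
    hMk K n (c • x) hcx = c • hMk K n x hx := by
  unfold hMk
  rw [← map_smul]
  congr 1
  rw [hapi_cyclesMk_eq_iff, map_smul, hapi_iCycles_cyclesMk]

/-- `hMk` only depends on the element. -/
theorem hapi_hMk_congr {x y : K.X n} (h : x = y) (hx : (K.d n (n + 1)).hom x = 0)
    (hy : (K.d n (n + 1)).hom y = 0) : hMk K n x hx = hMk K n y hy := by
  subst h; rfl

theorem hapi_hMk_zero (h0 : (K.d n (n + 1)).hom (0 : K.X n) = 0) : hMk K n 0 h0 = 0 := by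
  have h := hapi_hMk_smul K n (0 : k) (0 : K.X n) h0 (by simp)
  exact (hapi_hMk_congr K n (zero_smul k (0 : K.X n)).symm h0 _).trans (h.trans (zero_smul _ _))

theorem hapi_toCycles_iCycles (i j : ℕ) (y : K.X i) :
    (K.iCycles j).hom ((K.toCycles i j).hom y) = (K.d i j).hom y := by
  exact hapi_comp_apply _ _ _ (K.toCycles_i i j) y

theorem hapi_homologyπ_eq_zero_iff (i j : ℕ) (hi : (ComplexShape.up ℕ).prev j = i)
    (z : K.cycles j) :
    (K.homologyπ j).hom z = 0 ↔ ∃ y : K.X i, (K.toCycles i j).hom y = z := by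
  have hex : (ShortComplex.mk (K.toCycles i j) (K.homologyπ j)
      (K.toCycles_comp_homologyπ i j)).Exact :=
    ShortComplex.exact_of_g_is_cokernel _ (K.homologyIsCokernel i j hi)
  rw [ShortComplex.moduleCat_exact_iff] at hex
  constructor
  · intro h
    exact hex z h
  · rintro ⟨y, rfl⟩
    rw [hapi_comp_apply _ _ _ (K.toCycles_comp_homologyπ i j) y]
    rfl

/-- (4) A class in positive degree vanishes iff the cocycle is a coboundary. -/
theorem hapi_hMk_succ_eq_zero_iff (x : K.X (n + 1)) (hx : (K.d (n + 1) (n + 2)).hom x = 0) :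
    hMk K (n + 1) x hx = 0 ↔ ∃ y : K.X n, (K.d n (n + 1)).hom y = x := by
  unfold hMk
  rw [hapi_homologyπ_eq_zero_iff K n (n + 1) (by simp)]
  constructor
  · rintro ⟨y, hy⟩
    refine ⟨y, ?_⟩
    rw [← hapi_toCycles_iCycles, hy, hapi_iCycles_cyclesMk]
  · rintro ⟨y, hy⟩
    refine ⟨y, ?_⟩
    symm
    rw [hapi_cyclesMk_eq_iff, hapi_toCycles_iCycles, hy]

/-- (5) A class in degree `0` vanishes iff the cocycle vanishes. -/
theorem hapi_hMk_zero_eq_zero_iff (x : K.X 0) (hx : (K.d 0 1).hom x = 0) :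
    hMk K 0 x hx = 0 ↔ x = 0 := by
  unfold hMk
  have hinj : Function.Injective (K.homologyπ 0).hom :=
    (ModuleCat.mono_iff_injective _).1 inferInstance
  constructor
  · intro h
    have h1 : K.cyclesMk x (0 + 1) (by simp) hx = 0 := by
      apply hinj
      rw [map_zero]
      exact h
    have h2 := hapi_iCycles_cyclesMk K 0 x hx
    rw [h1, map_zero] at h2
    exact h2.symm
  · rintro rfl
    exact hapi_hMk_zero K 0 hx

/-- (6) Naturality. -/
theorem hapi_homologyMap_hMk (L : CochainComplex (ModuleCat.{u} k) ℕ) (f : K ⟶ L) (x : K.X n)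
    (hx : (K.d n (n + 1)).hom x = 0) (hfx : (L.d n (n + 1)).hom ((f.f n).hom x) = 0) :
    (HomologicalComplex.homologyMap f n).hom (hMk K n x hx) = hMk L n ((f.f n).hom x) hfx := by
  unfold hMk
  have h3 : (HomologicalComplex.homologyMap f n).hom
      ((K.homologyπ n).hom (K.cyclesMk x (n + 1) (by simp) hx)) =
      (L.homologyπ n).hom ((HomologicalComplex.cyclesMap f n).hom
        (K.cyclesMk x (n + 1) (by simp) hx)) := by
    rw [hapi_comp_apply _ _ _ (HomologicalComplex.homologyπ_naturality f n),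
      ← hapi_comp_apply _ _ _ rfl]
  rw [h3]
  congr 1
  symm
  rw [hapi_cyclesMk_eq_iff]
  have h6 : (L.iCycles n).hom ((HomologicalComplex.cyclesMap f n).hom
      (K.cyclesMk x (n + 1) (by simp) hx)) =
      (f.f n).hom ((K.iCycles n).hom (K.cyclesMk x (n + 1) (by simp) hx)) := by
    rw [hapi_comp_apply _ _ _ (HomologicalComplex.cyclesMap_i f n),
      ← hapi_comp_apply _ _ _ rfl]
  rw [h6, hapi_iCycles_cyclesMk]

/-- `hMk` of a negative. -/
theorem hapi_hMk_neg (x : K.X n) (hx : (K.d n (n + 1)).hom x = 0)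
    (hnx : (K.d n (n + 1)).hom (-x) = 0) : hMk K n (-x) hnx = -hMk K n x hx := by
  have h := hapi_hMk_smul K n (-1 : k) x hx (by rw [neg_one_smul]; exact hnx)
  exact (hapi_hMk_congr K n (neg_one_smul k x).symm hnx _).trans (h.trans (neg_one_smul _ _))

/-- `hMk` of a difference. -/
theorem hapi_hMk_sub (x y : K.X n) (hx : (K.d n (n + 1)).hom x = 0)
    (hy : (K.d n (n + 1)).hom y = 0) (hxy : (K.d n (n + 1)).hom (x - y) = 0) :
    hMk K n (x - y) hxy = hMk K n x hx - hMk K n y hy := by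
  have hny : (K.d n (n + 1)).hom (-y) = 0 := by rw [map_neg, hy, neg_zero]
  have hxy' : (K.d n (n + 1)).hom (x + -y) = 0 := by rw [← sub_eq_add_neg]; exact hxy
  refine (hapi_hMk_congr K n (sub_eq_add_neg x y) hxy hxy').trans ?_
  rw [hapi_hMk_add K n x (-y) hx hny hxy', hapi_hMk_neg K n y hy hny, sub_eq_add_neg]

/-- Two cocycles of positive degree have the same class iff they differ by a coboundary. -/
theorem hapi_hMk_succ_eq_iff (x y : K.X (n + 1)) (hx : (K.d (n + 1) (n + 2)).hom x = 0)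
    (hy : (K.d (n + 1) (n + 2)).hom y = 0) :
    hMk K (n + 1) x hx = hMk K (n + 1) y hy ↔ ∃ z : K.X n, (K.d n (n + 1)).hom z = x - y := by
  have hxy : (K.d (n + 1) (n + 2)).hom (x - y) = 0 := by rw [map_sub, hx, hy, sub_zero]
  rw [← sub_eq_zero, ← hapi_hMk_sub K (n + 1) x y hx hy hxy, hapi_hMk_succ_eq_zero_iff]

/-- Two cocycles of degree `0` have the same class iff they are equal. -/
theorem hapi_hMk_zero_eq_iff (x y : K.X 0) (hx : (K.d 0 1).hom x = 0)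
    (hy : (K.d 0 1).hom y = 0) :
    hMk K 0 x hx = hMk K 0 y hy ↔ x = y := by
  have hxy : (K.d 0 1).hom (x - y) = 0 := by rw [map_sub, hx, hy, sub_zero]
  rw [← sub_eq_zero, ← hapi_hMk_sub K 0 x y hx hy hxy, hapi_hMk_zero_eq_zero_iff, sub_eq_zero]

/-- The class of a coboundary vanishes. -/
theorem hapi_hMk_d (y : K.X n) (h : (K.d (n + 1) (n + 2)).hom ((K.d n (n + 1)).hom y) = 0) :
    hMk K (n + 1) ((K.d n (n + 1)).hom y) h = 0 :=
  (hapi_hMk_succ_eq_zero_iff K n _ h).2 ⟨y, rfl⟩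

theorem hapi_d_d (y : K.X n) : (K.d (n + 1) (n + 2)).hom ((K.d n (n + 1)).hom y) = 0 := by
  rw [hapi_comp_apply _ _ _ (K.d_comp_d n (n + 1) (n + 2)) y]
  rfl

/-! ### The linear map `ker d →ₗ Hⁿ` -/

/-- The class map on cocycles, as a linear map `ker dⁿ →ₗ Hⁿ(K)`. -/
def cocyclesToH : LinearMap.ker (K.d n (n + 1)).hom →ₗ[k] K.homology n where
  toFun x := hMk K n x.1 (LinearMap.mem_ker.1 x.2)
  map_add' x y := hapi_hMk_add K n x.1 y.1 _ _ _
  map_smul' c x := hapi_hMk_smul K n c x.1 _ _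

@[simp] theorem cocyclesToH_apply (x : LinearMap.ker (K.d n (n + 1)).hom) :
    cocyclesToH K n x = hMk K n x.1 (LinearMap.mem_ker.1 x.2) := rfl

theorem cocyclesToH_mk (x : K.X n) (hx : (K.d n (n + 1)).hom x = 0) :
    cocyclesToH K n ⟨x, LinearMap.mem_ker.2 hx⟩ = hMk K n x hx := rfl

theorem cocyclesToH_surjective : Function.Surjective (cocyclesToH K n) := by
  intro z
  obtain ⟨x, hx, rfl⟩ := hapi_hMk_surjective K n z
  exact ⟨⟨x, LinearMap.mem_ker.2 hx⟩, rfl⟩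

theorem cocyclesToH_succ_eq_zero_iff (x : LinearMap.ker (K.d (n + 1) (n + 2)).hom) :
    cocyclesToH K (n + 1) x = 0 ↔ ∃ y : K.X n, (K.d n (n + 1)).hom y = x.1 :=
  hapi_hMk_succ_eq_zero_iff K n x.1 _

theorem cocyclesToH_succ_eq_iff (x y : LinearMap.ker (K.d (n + 1) (n + 2)).hom) :
    cocyclesToH K (n + 1) x = cocyclesToH K (n + 1) y ↔
      ∃ z : K.X n, (K.d n (n + 1)).hom z = x.1 - y.1 :=
  hapi_hMk_succ_eq_iff K n x.1 y.1 _ _

/-- The kernel of `ker dⁿ⁺¹ → Hⁿ⁺¹` is the submodule of coboundaries. -/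
theorem ker_cocyclesToH_succ :
    LinearMap.ker (cocyclesToH K (n + 1)) =
      (LinearMap.range (K.d n (n + 1)).hom).comap
        (LinearMap.ker (K.d (n + 1) (n + 2)).hom).subtype := by
  ext x
  rw [LinearMap.mem_ker, cocyclesToH_succ_eq_zero_iff]
  rfl

theorem cocyclesToH_zero_injective : Function.Injective (cocyclesToH K 0) := by
  intro x y h
  exact Subtype.ext ((hapi_hMk_zero_eq_iff K x.1 y.1 _ _).1 h)

/-- `ker d⁰ ≃ H⁰`. -/
def cocyclesToH₀Equiv : LinearMap.ker (K.d 0 1).hom ≃ₗ[k] K.homology 0 :=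
  LinearEquiv.ofBijective (cocyclesToH K 0)
    ⟨cocyclesToH_zero_injective K, cocyclesToH_surjective K 0⟩

@[simp] theorem cocyclesToH₀Equiv_apply (x : LinearMap.ker (K.d 0 1).hom) :
    cocyclesToH₀Equiv K x = hMk K 0 x.1 (LinearMap.mem_ker.1 x.2) := rfl

theorem hapi_map_mem_ker {L : CochainComplex (ModuleCat.{u} k) ℕ} (f : K ⟶ L)
    (x : K.X n) (hx : (K.d n (n + 1)).hom x = 0) :
    (L.d n (n + 1)).hom ((f.f n).hom x) = 0 := by
  rw [hapi_comp_apply _ _ _ (f.comm n (n + 1)) x]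
  show (f.f (n + 1)).hom ((K.d n (n + 1)).hom x) = 0
  rw [hx, map_zero]

/-- Naturality without having to supply the cocycle condition of the image. -/
theorem hapi_homologyMap_hMk' (L : CochainComplex (ModuleCat.{u} k) ℕ) (f : K ⟶ L) (x : K.X n)
    (hx : (K.d n (n + 1)).hom x = 0) :
    (HomologicalComplex.homologyMap f n).hom (hMk K n x hx) =
      hMk L n ((f.f n).hom x) (hapi_map_mem_ker K n f x hx) :=
  hapi_homologyMap_hMk K n L f x hx _

theorem cocyclesToH_naturality (L : CochainComplex (ModuleCat.{u} k) ℕ) (f : K ⟶ L)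
    (x : LinearMap.ker (K.d n (n + 1)).hom) :
    (HomologicalComplex.homologyMap f n).hom (cocyclesToH K n x) =
      cocyclesToH L n ⟨(f.f n).hom x.1,
        LinearMap.mem_ker.2 (hapi_map_mem_ker K n f x.1 (LinearMap.mem_ker.1 x.2))⟩ :=
  hapi_homologyMap_hMk K n L f x.1 _ _

end General

section Level

variable {k G : Type u} [CommRing k] [Group G] (𝒰 : LevelSys G) (M : Rep.{u} k G) (n : ℕ)

theorem lvlComplex_d_hom_apply (x : lvlCochains 𝒰 M n) :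
    ((lvlComplex 𝒰 M).d n (n + 1)).hom x = lvlD 𝒰 M n x := by
  simp [CochainComplex.of.d]

theorem lvlHMk_eq_hMk (x : lvlCochains 𝒰 M n) (hx : lvlD 𝒰 M n x = 0)
    (hx' : ((lvlComplex 𝒰 M).d n (n + 1)).hom x = 0) :
    lvlHMk 𝒰 M n x hx = hMk (lvlComplex 𝒰 M) n x hx' := rfl

theorem lvlHMk_congr {x y : lvlCochains 𝒰 M n} (h : x = y) (hx : lvlD 𝒰 M n x = 0)
    (hy : lvlD 𝒰 M n y = 0) : lvlHMk 𝒰 M n x hx = lvlHMk 𝒰 M n y hy := by
  subst h; rfl

/-- Every level cohomology class is the class of a level cocycle. -/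
theorem lvlHMk_surjective (z : lvlH 𝒰 M n) :
    ∃ (x : lvlCochains 𝒰 M n) (hx : lvlD 𝒰 M n x = 0), lvlHMk 𝒰 M n x hx = z := by
  obtain ⟨x, hx, rfl⟩ := hapi_hMk_surjective (lvlComplex 𝒰 M) n z
  exact ⟨x, (lvlComplex_d_hom_apply 𝒰 M n x).symm.trans hx, rfl⟩

theorem lvlHMk_add (x y : lvlCochains 𝒰 M n) (hx : lvlD 𝒰 M n x = 0) (hy : lvlD 𝒰 M n y = 0)
    (hxy : lvlD 𝒰 M n (x + y) = 0) :
    lvlHMk 𝒰 M n (x + y) hxy = lvlHMk 𝒰 M n x hx + lvlHMk 𝒰 M n y hy :=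
  hapi_hMk_add (lvlComplex 𝒰 M) n x y _ _ _

theorem lvlHMk_smul (c : k) (x : lvlCochains 𝒰 M n) (hx : lvlD 𝒰 M n x = 0)
    (hcx : lvlD 𝒰 M n (c • x) = 0) :
    lvlHMk 𝒰 M n (c • x) hcx = c • lvlHMk 𝒰 M n x hx :=
  hapi_hMk_smul (lvlComplex 𝒰 M) n c x _ _

theorem lvlHMk_zero (h0 : lvlD 𝒰 M n 0 = 0) : lvlHMk 𝒰 M n 0 h0 = 0 :=
  hapi_hMk_zero (lvlComplex 𝒰 M) n _

theorem lvlHMk_neg (x : lvlCochains 𝒰 M n) (hx : lvlD 𝒰 M n x = 0)
    (hnx : lvlD 𝒰 M n (-x) = 0) : lvlHMk 𝒰 M n (-x) hnx = -lvlHMk 𝒰 M n x hx :=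
  hapi_hMk_neg (lvlComplex 𝒰 M) n x _ _

theorem lvlHMk_sub (x y : lvlCochains 𝒰 M n) (hx : lvlD 𝒰 M n x = 0) (hy : lvlD 𝒰 M n y = 0)
    (hxy : lvlD 𝒰 M n (x - y) = 0) :
    lvlHMk 𝒰 M n (x - y) hxy = lvlHMk 𝒰 M n x hx - lvlHMk 𝒰 M n y hy :=
  hapi_hMk_sub (lvlComplex 𝒰 M) n x y _ _ _

/-- A level class of positive degree vanishes iff the cocycle is a level coboundary. -/
theorem lvlHMk_succ_eq_zero_iff (x : lvlCochains 𝒰 M (n + 1)) (hx : lvlD 𝒰 M (n + 1) x = 0) :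
    lvlHMk 𝒰 M (n + 1) x hx = 0 ↔ ∃ y : lvlCochains 𝒰 M n, lvlD 𝒰 M n y = x := by
  refine (hapi_hMk_succ_eq_zero_iff (lvlComplex 𝒰 M) n x _).trans ?_
  constructor
  · rintro ⟨y, hy⟩
    exact ⟨y, (lvlComplex_d_hom_apply 𝒰 M n y).symm.trans hy⟩
  · rintro ⟨y, hy⟩
    exact ⟨y, (lvlComplex_d_hom_apply 𝒰 M n y).trans hy⟩

theorem lvlHMk_succ_eq_iff (x y : lvlCochains 𝒰 M (n + 1)) (hx : lvlD 𝒰 M (n + 1) x = 0)
    (hy : lvlD 𝒰 M (n + 1) y = 0) :
    lvlHMk 𝒰 M (n + 1) x hx = lvlHMk 𝒰 M (n + 1) y hy ↔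
      ∃ z : lvlCochains 𝒰 M n, lvlD 𝒰 M n z = x - y := by
  have hxy : lvlD 𝒰 M (n + 1) (x - y) = 0 := by rw [map_sub, hx, hy, sub_zero]
  rw [← sub_eq_zero, ← lvlHMk_sub 𝒰 M (n + 1) x y hx hy hxy, lvlHMk_succ_eq_zero_iff]

/-- A level class of degree `0` vanishes iff the cocycle vanishes. -/
theorem lvlHMk_zero_eq_zero_iff (x : lvlCochains 𝒰 M 0) (hx : lvlD 𝒰 M 0 x = 0) :
    lvlHMk 𝒰 M 0 x hx = 0 ↔ x = 0 :=
  hapi_hMk_zero_eq_zero_iff (lvlComplex 𝒰 M) x _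

theorem lvlHMk_zero_eq_iff (x y : lvlCochains 𝒰 M 0) (hx : lvlD 𝒰 M 0 x = 0)
    (hy : lvlD 𝒰 M 0 y = 0) :
    lvlHMk 𝒰 M 0 x hx = lvlHMk 𝒰 M 0 y hy ↔ x = y :=
  hapi_hMk_zero_eq_iff (lvlComplex 𝒰 M) x y _ _

/-- Images of level cocycles under a morphism of level complexes are level cocycles. -/
theorem lvlD_map_eq_zero {H : Type u} [Group H] (𝒱 : LevelSys H) (B : Rep.{u} k H)
    (f : lvlComplex 𝒰 M ⟶ lvlComplex 𝒱 B) (x : lvlCochains 𝒰 M n) (hx : lvlD 𝒰 M n x = 0) :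
    lvlD 𝒱 B n ((f.f n).hom x) = 0 := by
  rw [← lvlComplex_d_hom_apply]
  exact hapi_map_mem_ker (lvlComplex 𝒰 M) n f x ((lvlComplex_d_hom_apply 𝒰 M n x).trans hx)

/-- Naturality of level classes for an arbitrary morphism of level complexes (in particular
`lvlCochainsMap`, `lvlMap`, `lvlRes`). -/
theorem lvlHMk_naturality {H : Type u} [Group H] (𝒱 : LevelSys H) (B : Rep.{u} k H)
    (f : lvlComplex 𝒰 M ⟶ lvlComplex 𝒱 B) (x : lvlCochains 𝒰 M n) (hx : lvlD 𝒰 M n x = 0) :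
    (HomologicalComplex.homologyMap f n).hom (lvlHMk 𝒰 M n x hx) =
      lvlHMk 𝒱 B n ((f.f n).hom x) (lvlD_map_eq_zero 𝒰 M n 𝒱 B f x hx) :=
  hapi_homologyMap_hMk (lvlComplex 𝒰 M) n (lvlComplex 𝒱 B) f x _ _

/-- Naturality of level classes in the coefficients. -/
theorem lvlHMk_lvlMap {B : Rep.{u} k G} (φ : M ⟶ B) (x : lvlCochains 𝒰 M n)
    (hx : lvlD 𝒰 M n x = 0) :
    (HomologicalComplex.homologyMap (lvlMap 𝒰 φ) n).hom (lvlHMk 𝒰 M n x hx) =
      lvlHMk 𝒰 B n (((lvlMap 𝒰 φ).f n).hom x) (lvlD_map_eq_zero 𝒰 M n 𝒰 B _ x hx) :=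
  lvlHMk_naturality 𝒰 M n 𝒰 B (lvlMap 𝒰 φ) x hx

/-- The class map on level cocycles, as a linear map `ker (lvlD n) →ₗ Hⁿ(𝒰, M)`. -/
def lvlCocyclesToH : LinearMap.ker (lvlD 𝒰 M n) →ₗ[k] lvlH 𝒰 M n where
  toFun x := lvlHMk 𝒰 M n x.1 (LinearMap.mem_ker.1 x.2)
  map_add' x y := lvlHMk_add 𝒰 M n x.1 y.1 _ _ _
  map_smul' c x := lvlHMk_smul 𝒰 M n c x.1 _ _

@[simp] theorem lvlCocyclesToH_apply (x : LinearMap.ker (lvlD 𝒰 M n)) :
    lvlCocyclesToH 𝒰 M n x = lvlHMk 𝒰 M n x.1 (LinearMap.mem_ker.1 x.2) := rfl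

theorem lvlCocyclesToH_surjective : Function.Surjective (lvlCocyclesToH 𝒰 M n) := by
  intro z
  obtain ⟨x, hx, rfl⟩ := lvlHMk_surjective 𝒰 M n z
  exact ⟨⟨x, LinearMap.mem_ker.2 hx⟩, rfl⟩

theorem lvlCocyclesToH_succ_eq_zero_iff (x : LinearMap.ker (lvlD 𝒰 M (n + 1))) :
    lvlCocyclesToH 𝒰 M (n + 1) x = 0 ↔ ∃ y : lvlCochains 𝒰 M n, lvlD 𝒰 M n y = x.1 :=
  lvlHMk_succ_eq_zero_iff 𝒰 M n x.1 (LinearMap.mem_ker.1 x.2)

/-- The kernel of `ker (lvlD (n+1)) → Hⁿ⁺¹(𝒰, M)` is the submodule of level coboundaries. -/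
theorem ker_lvlCocyclesToH_succ :
    LinearMap.ker (lvlCocyclesToH 𝒰 M (n + 1)) =
      (LinearMap.range (lvlD 𝒰 M n)).comap (LinearMap.ker (lvlD 𝒰 M (n + 1))).subtype := by
  ext x
  rw [LinearMap.mem_ker, lvlCocyclesToH_succ_eq_zero_iff]
  rfl

theorem lvlCocyclesToH_zero_injective : Function.Injective (lvlCocyclesToH 𝒰 M 0) := by
  intro x y h
  exact Subtype.ext ((lvlHMk_zero_eq_iff 𝒰 M x.1 y.1 (LinearMap.mem_ker.1 x.2)
    (LinearMap.mem_ker.1 y.2)).1 h)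

/-- `ker (lvlD 0) ≃ H⁰(𝒰, M)`. -/
def lvlCocyclesToH₀Equiv : LinearMap.ker (lvlD 𝒰 M 0) ≃ₗ[k] lvlH 𝒰 M 0 :=
  LinearEquiv.ofBijective (lvlCocyclesToH 𝒰 M 0)
    ⟨lvlCocyclesToH_zero_injective 𝒰 M, lvlCocyclesToH_surjective 𝒰 M 0⟩

end Level

/-- **[F-API]** `Fermat.Agent.H13.Cft.HomologyApiStatement`. -/
theorem homologyApi : HomologyApiStatement.{u} := by
  intro k _ K n
  exact ⟨hapi_hMk_surjective K n, hapi_hMk_add K n, hapi_hMk_smul K n,
    hapi_hMk_succ_eq_zero_iff K n, hapi_hMk_zero_eq_zero_iff K,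
    hapi_homologyMap_hMk K n⟩

end

end Fermat.Agent.H19
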