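/-
P-CFT row 964 (GA-FIELD, owner helper19): basic dictionary lemmas.

* places: `g • A_q`, decomposition groups, `range (primeLocalToGlobal q) = D_{A_q}`;
* `gaf_liesOver_unique` : a place lies over at most one prime;
* normal closures: a finite `F` is contained in a finite `F'` whose fixing subgroup is normal of
  finite index;
* `G_K` for a `G_ℚ`-stable `K` unramified outside `S` is a level of `G_{ℚ,S}`.
-/
import Fermat.Agent.H13.Cft.ULang
import Fermat.Agent.H76.Cft.PairInterfaces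
import Fermat.Agent.H21.Cft.BridgeLevels
import Fermat.Agent.H94.Cft.CycloLevel
import Fermat.Agent.H81.Local.Range

set_option autoImplicit false
set_option linter.style.haveILetI false

open CategoryTheory ExtCitation IntermediateField
open scoped Pointwise

namespace Fermat.Agent.H19.GaField

open Fermat.Agent.H13.Cft
open Fermat.Agent.H54.Cft hiding GQ
open Fermat.Agent.H76.Cft hiding GQ

/-! ### Places -/

/-- `σ ∈ D_{g • A} ↔ g⁻¹ σ g ∈ D_A`. -/
theorem gaf_mem_decomp_smul (g σ : GQ) (A : ValuationSubring Qbar) :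
    σ ∈ (g • A).decompositionSubgroup ℚ ↔ g⁻¹ * σ * g ∈ A.decompositionSubgroup ℚ := by
  show σ • (g • A) = g • A ↔ (g⁻¹ * σ * g) • A = A
  rw [mul_smul, mul_smul, inv_smul_eq_iff]

/-- A place lies over at most one prime. -/
theorem gaf_liesOver_unique {A : ValuationSubring Qbar} {p q : ℕ} (hp : p.Prime) (hq : q.Prime)
    (hAp : A.LiesOverPrime p) (hAq : A.LiesOverPrime q) : p = q := by
  by_contra hne
  have hcop : Nat.Coprime p q := (Nat.coprime_primes hp hq).2 hne
  have h1 : ((Nat.gcd p q : ℤ) : Qbar) = (p : Qbar) * ((Nat.gcdA p q : ℤ) : Qbar) +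
      (q : Qbar) * ((Nat.gcdB p q : ℤ) : Qbar) := by
    have := Nat.gcd_eq_gcd_ab p q
    exact_mod_cast congrArg (fun z : ℤ => (z : Qbar)) this
  rw [hcop.gcd_eq_one] at h1
  have hmem : ∀ (x : Qbar) (z : ℤ), x ∈ A.nonunits → x * (z : Qbar) ∈ A.nonunits := by
    intro x z hx
    rw [A.mem_nonunits_iff, map_mul]
    refine mul_lt_one_of_nonneg_of_lt_one_left zero_le (A.mem_nonunits_iff.1 hx) ?_
    exact (A.valuation_le_one_iff _).2 (intCast_mem A z)
  have h2 : (1 : Qbar) ∈ A.nonunits := by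
    have := A.nonunits.add_mem (hmem _ (Nat.gcdA p q) hAp) (hmem _ (Nat.gcdB p q) hAq)
    rw [← h1] at this
    simpa using this
  rw [A.mem_nonunits_iff, map_one] at h2
  exact lt_irrefl _ h2

/-- The fixed place over `q`. -/
noncomputable abbrev gafPlace (q : Nat.Primes) : ValuationSubring Qbar := primeLocalPlace q

theorem gaf_place_liesOver (q : Nat.Primes) : (gafPlace q).LiesOverPrime (q : ℕ) := by
  haveI : Fact (q : ℕ).Prime := ⟨q.2⟩
  exact Fermat.Agent.H81.Local.padicPlace_liesOverPrime (q : ℕ)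

theorem gaf_range_loc (q : Nat.Primes) :
    (primeLocalToGlobal q).range = (gafPlace q).decompositionSubgroup ℚ := by
  haveI : Fact (q : ℕ).Prime := ⟨q.2⟩
  exact Fermat.Agent.H81.Local.range_localGaloisToGlobal (q : ℕ)

theorem gaf_loc_injective (q : Nat.Primes) : Function.Injective (primeLocalToGlobal q) := by
  haveI : Fact (q : ℕ).Prime := ⟨q.2⟩
  exact Fermat.Agent.H81.Local.localGaloisToGlobal_injective (q : ℕ)

/-- `σ ∈ D_{g • A_q}` iff `σ = g loc(γ) g⁻¹`. -/
theorem gaf_mem_decomp_iff (q : Nat.Primes) (g σ : GQ) :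
    σ ∈ (g • gafPlace q).decompositionSubgroup ℚ ↔
      ∃ γ : primeLocalGaloisGroup q, g * primeLocalToGlobal q γ * g⁻¹ = σ := by
  rw [gaf_mem_decomp_smul, ← gaf_range_loc, MonoidHom.mem_range]
  constructor
  · rintro ⟨γ, hγ⟩
    exact ⟨γ, by rw [hγ]; group⟩
  · rintro ⟨γ, rfl⟩
    exact ⟨γ, by group⟩

/-! ### Normal closures -/

/-- Every finite `F` lies in a finite `F'` whose fixing subgroup is normal of finite index. -/
theorem gaf_exists_normal (F : IntermediateField ℚ Qbar) [FiniteDimensional ℚ F] :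
    ∃ F' : IntermediateField ℚ Qbar, FiniteDimensional ℚ F' ∧ F ≤ F' ∧
      F'.fixingSubgroup.Normal ∧ F'.fixingSubgroup.FiniteIndex := by
  haveI := Fermat.Agent.H21.Cft.isGalois_qbar_adm
  haveI : Normal ℚ Qbar := Fermat.Agent.H21.Cft.isGalois_qbar_adm.to_normal
  haveI : FiniteDimensional ℚ (normalClosure ℚ F Qbar) :=
    normalClosure.is_finiteDimensional ℚ F _
  haveI : Normal ℚ (normalClosure ℚ F Qbar) := normalClosure.normal ℚ F _
  haveI : IsGalois ℚ (normalClosure ℚ F Qbar) := ⟨⟩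
  exact ⟨normalClosure ℚ F Qbar, inferInstance, IntermediateField.le_normalClosure F,
    (InfiniteGalois.normal_iff_isGalois _).mpr inferInstance,
    Fermat.Agent.H21.Cft.finiteIndex_fixingSubgroup_adm _⟩

/-! ### The level `G_K` -/

/-- The fixing subgroup of a `G_ℚ`-stable field is normal. -/
theorem gaf_fixing_normal (K : IntermediateField ℚ Qbar)
    (hstab : ∀ (g : GQ) (x : Qbar), x ∈ K → g x ∈ K) : K.fixingSubgroup.Normal := by
  refine ⟨fun n hn g => ?_⟩
  rw [IntermediateField.mem_fixingSubgroup_iff] at hn ⊢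
  intro x hx
  have h1 : g⁻¹ x ∈ K := hstab g⁻¹ x hx
  show g (n (g⁻¹ x)) = x
  rw [hn _ h1]
  show (g * g⁻¹) x = x
  rw [mul_inv_cancel]
  rfl

/-- `G_K` is a level of `G_{ℚ,S}` for `K` stable under `G_ℚ` and unramified outside `S`. -/
theorem gaf_fixing_mem_level (S : Finset Nat.Primes) (K : IntermediateField ℚ Qbar)
    (hK : K.IsUnramifiedOutside S) (hstab : ∀ (g : GQ) (x : Qbar), x ∈ K → g x ∈ K) :
    K.fixingSubgroup ∈ (globalLevelSys S).sets := by
  haveI : FiniteDimensional ℚ K := hK.1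
  exact ⟨gaf_fixing_normal K hstab, Fermat.Agent.H21.Cft.finiteIndex_fixingSubgroup_adm K,
    ⟨K, hK.1, le_rfl⟩, hK.2⟩

/-- The cyclotomic character is trivial on `G_K` when `μ_p ⊆ K`. -/
theorem gaf_cyclo_trivial (p : ℕ) [Fact p.Prime] (K : IntermediateField ℚ Qbar)
    (hμ : ∀ ω : Qbar, ω ^ p = 1 → ω ∈ K) (s : GQ) (hs : s ∈ K.fixingSubgroup) :
    cycloChar p s = 1 := by
  refine Fermat.Agent.H94.Cft.cycloChar_eq_one_of_fix p s fun t ht => ?_
  exact (IntermediateField.mem_fixingSubgroup_iff K s).1 hs t (hμ t ht)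

end Fermat.Agent.H19.GaField
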