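/-
P-CFT row 964 (GA-FIELD, owner helper19): the dictionary FIELD language → U-language for [GA'].

`bdPairsU_of_field : Fermat.Agent.H76.Cft.PairRealCofStatement →
  Fermat.Agent.H13.Cft.BdPairsUStatement`.

Dictionary: `N = G_K`; the place `(q, g)` of `N` corresponds to the place `A = g • A_q` of `ℚ̄`
(`A_q = primeLocalPlace q`); `mackeyLoc : {γ ∈ Γ_q | g loc(γ) g⁻¹ ∈ N} → N` is a bijection onto
`D_A ∩ N`; `SamePlaceOver K (g • A_q) (g' • A_q) → SamePlace N q g g'`;
`IsLocTrivAt K (g • A_q) x ↔ IsLocTriv₂ N x q g`.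
-/
import Fermat.Agent.H19.Cft.GaFieldBasics

set_option autoImplicit false
set_option linter.style.haveILetI false

open CategoryTheory ExtCitation IntermediateField
open scoped Pointwise

namespace Fermat.Agent.H19.GaField

open Fermat.Agent.H13.Cft
open Fermat.Agent.H54.Cft hiding GQ
open Fermat.Agent.H76.Cft hiding GQ
open Fermat.Agent.H97.Shap Fermat.Agent.H78.CFT

/-! ### Cocycles and global levels -/

theorem gaf_trivCocycle {G : Type} [Group G] {p : ℕ} {x : G × G → ZMod p}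
    (hx : Fermat.Agent.H54.Cft.IsCocycle₂ x) : IsTrivCocycle₂ x := by
  intro g h j
  have := hx g h j
  linear_combination -this

theorem gaf_isLvl₂ (S : Finset Nat.Primes) (K : IntermediateField ℚ Qbar)
    (hK : K.IsUnramifiedOutside S)
    (hU : ∃ N ∈ (globalLevelSys S).sets, N ≤ K.fixingSubgroup) {p : ℕ}
    {x : GalL K × GalL K → ZMod p} (hx : IsSLvl₂ S K x) :
    IsLvl₂ ((globalLevelSys S).restrict K.fixingSubgroup hU) x := by
  obtain ⟨F, hF, hxF⟩ := hx
  obtain ⟨L, hL, hLle⟩ := Fermat.Agent.H21.Cft.exists_level_le_fixingSubgroup S (hF.sup hK)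
  rw [IntermediateField.fixingSubgroup_sup] at hLle
  refine ⟨L.subgroupOf K.fixingSubgroup, ⟨L, hL, hLle.trans inf_le_right, rfl⟩, ?_⟩
  intro g h n hn m hm
  exact hxF g h n m ((hLle (Subgroup.mem_subgroupOf.1 hn)).1)
    ((hLle (Subgroup.mem_subgroupOf.1 hm)).1)

/-! ### Places -/

section places

variable (p : ℕ) [Fact p.Prime] (S : Finset Nat.Primes)
  (hχ : ∃ N ∈ (globalLevelSys S).sets, ∀ s ∈ N, cycloChar p s = 1)
  (K : IntermediateField ℚ Qbar)

/-- Two group elements defining the same place of `K` define the same place of `N = G_K`. -/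
theorem gaf_samePlace_of_over (v : ↥S) (g h : GQ)
    (hso : SamePlaceOver K (g • gafPlace v.1) (h • gafPlace v.1)) :
    SamePlace (arithDatumQ p S hχ) K.fixingSubgroup v g h := by
  obtain ⟨σ, hσ, hσA⟩ := hso
  have h1 : h⁻¹ * σ * g ∈ (gafPlace v.1).decompositionSubgroup ℚ := by
    show (h⁻¹ * σ * g) • gafPlace v.1 = gafPlace v.1
    rw [mul_smul, mul_smul, hσA, inv_smul_smul]
  rw [← gaf_range_loc] at h1
  obtain ⟨γ, hγ⟩ := h1
  refine ⟨⟨σ, hσ⟩, (γ⁻¹ : primeLocalGaloisGroup v.1), ?_⟩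
  show h = σ * g * primeLocalToGlobal v.1 γ⁻¹
  rw [map_inv, hγ]
  group

/-- Places over different primes are different. -/
theorem gaf_not_over_of_ne {q q' : Nat.Primes} (hne : q ≠ q') (g h : GQ) :
    ¬ SamePlaceOver K (g • gafPlace q) (h • gafPlace q') := by
  rintro ⟨σ, -, hσA⟩
  have h1 : (σ • g • gafPlace q).LiesOverPrime (q : ℕ) :=
    Fermat.Agent.H96.Cft.liesOverPrime_smul σ
      (Fermat.Agent.H96.Cft.liesOverPrime_smul g (gaf_place_liesOver q))
  have h2 : (h • gafPlace q').LiesOverPrime (q' : ℕ) :=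
    Fermat.Agent.H96.Cft.liesOverPrime_smul h (gaf_place_liesOver q')
  rw [hσA] at h1
  exact hne (Subtype.ext (gaf_liesOver_unique q.2 q'.2 h1 h2))

end places

/-! ### Local triviality (generic local group) -/

section loc

variable {Γ : Type} [Group Γ] (loc : Γ →* GQ) (K : IntermediateField ℚ Qbar) (h : GQ)
  (A : ValuationSubring Qbar)

/-- The comap of the fixing subgroup of a finite normal field is a level of the pull-back
level system. -/
theorem gaf_comap_mem_pullback (F' : IntermediateField ℚ Qbar) (hF'fin : FiniteDimensional ℚ F')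
    (hF'n : F'.fixingSubgroup.Normal) (hF'fi : F'.fixingSubgroup.FiniteIndex) :
    F'.fixingSubgroup.comap loc ∈ (pullbackLevelSys loc).sets := by
  refine ⟨Subgroup.Normal.comap hF'n _, ⟨?_⟩, F', hF'fin, le_rfl⟩
  rw [Subgroup.index_comap]
  intro h0
  exact hF'fi.index_ne_zero (Subgroup.index_eq_zero_of_relIndex_eq_zero h0)

variable (hD : ∀ σ : GQ, σ ∈ A.decompositionSubgroup ℚ ↔ ∃ γ : Γ, h * loc γ * h⁻¹ = σ)

include hD in
theorem gaf_mackeyLoc_mem_decomp (γ : mackeySubgroup loc K.fixingSubgroup h) :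
    ((mackeyLoc loc K.fixingSubgroup h γ : K.fixingSubgroup) : GQ) ∈
      A.decompositionSubgroup ℚ :=
  (hD _).2 ⟨γ.1, rfl⟩

theorem gaf_mackeyLoc_injective (hinj : Function.Injective loc) :
    Function.Injective (mackeyLoc loc K.fixingSubgroup h) := by
  intro γ δ hγδ
  have h1 : h * loc γ.1 * h⁻¹ = h * loc δ.1 * h⁻¹ :=
    congrArg (fun n : K.fixingSubgroup => (n : GQ)) hγδ
  have h2 : loc γ.1 = loc δ.1 := mul_left_cancel (mul_right_cancel h1)
  exact Subtype.ext (hinj h2)

include hD in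
theorem gaf_mackeyLoc_surj (n : K.fixingSubgroup)
    (hn : (n : GQ) ∈ A.decompositionSubgroup ℚ) :
    ∃ γ : mackeySubgroup loc K.fixingSubgroup h, mackeyLoc loc K.fixingSubgroup h γ = n := by
  obtain ⟨γ, hγ⟩ := (hD _).1 hn
  have hmem : γ ∈ mackeySubgroup loc K.fixingSubgroup h := by
    rw [mem_mackeySubgroup, hγ]
    exact n.2
  exact ⟨⟨γ, hmem⟩, Subtype.ext hγ⟩

variable (hopen : ∃ N ∈ (pullbackLevelSys loc).sets, N ≤ mackeySubgroup loc K.fixingSubgroup h)

include hD in
/-- FIELD → U: local triviality at `A` gives local triviality at the corresponding place. -/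
theorem gaf_locTriv_of_at (hKfin : FiniteDimensional ℚ K) (hKn : K.fixingSubgroup.Normal)
    {p : ℕ} (x : GalL K × GalL K → ZMod p) (hat : IsLocTrivAt K A x) :
    IsLvlCoboundary₂ ((pullbackLevelSys loc).restrict (mackeySubgroup loc K.fixingSubgroup h)
        hopen)
      (fun z => x (mackeyLoc loc K.fixingSubgroup h z.1,
        mackeyLoc loc K.fixingSubgroup h z.2)) := by
  obtain ⟨y, ⟨F, hF, hyF⟩, hy⟩ := hat
  haveI := hF
  haveI : FiniteDimensional ℚ (F ⊔ K : IntermediateField ℚ Qbar) :=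
    IntermediateField.finiteDimensional_sup F K
  obtain ⟨F', hF'fin, hle, hF'n, hF'fi⟩ := gaf_exists_normal (F ⊔ K)
  have hF'F : F'.fixingSubgroup ≤ F.fixingSubgroup :=
    IntermediateField.fixingSubgroup_antitone (le_sup_left.trans hle)
  have hF'K : F'.fixingSubgroup ≤ K.fixingSubgroup :=
    IntermediateField.fixingSubgroup_antitone (le_sup_right.trans hle)
  refine ⟨fun γ => y (mackeyLoc loc K.fixingSubgroup h γ), ?_, ?_⟩
  · refine ⟨(F'.fixingSubgroup.comap loc).subgroupOf (mackeySubgroup loc K.fixingSubgroup h),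
      ⟨F'.fixingSubgroup.comap loc, gaf_comap_mem_pullback loc F' hF'fin hF'n hF'fi, ?_, rfl⟩,
      ?_⟩
    · intro γ hγ
      rw [mem_mackeySubgroup]
      exact hKn.conj_mem _ (hF'K (Subgroup.mem_comap.1 hγ)) h
    · intro γ ν hν
      show y (mackeyLoc loc K.fixingSubgroup h (γ * ν)) =
        y (mackeyLoc loc K.fixingSubgroup h γ)
      rw [map_mul]
      refine hyF _ _ (gaf_mackeyLoc_mem_decomp loc K h A hD γ)
        (gaf_mackeyLoc_mem_decomp loc K h A hD ν) ?_
      have h1 : loc ν.1 ∈ F'.fixingSubgroup :=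
        Subgroup.mem_comap.1 (Subgroup.mem_subgroupOf.1 hν)
      exact hF'F (hF'n.conj_mem _ h1 h)
  · intro γ δ
    show y (mackeyLoc loc K.fixingSubgroup h δ) -
        y (mackeyLoc loc K.fixingSubgroup h (γ * δ)) +
        y (mackeyLoc loc K.fixingSubgroup h γ) =
      x (mackeyLoc loc K.fixingSubgroup h γ, mackeyLoc loc K.fixingSubgroup h δ)
    rw [map_mul]
    exact (hy _ _ (gaf_mackeyLoc_mem_decomp loc K h A hD γ)
      (gaf_mackeyLoc_mem_decomp loc K h A hD δ)).symm

include hD in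
/-- U → FIELD: local triviality at the place `(loc, h)` gives local triviality at `A`. -/
theorem gaf_at_of_locTriv (hinj : Function.Injective loc) {p : ℕ}
    (x : GalL K × GalL K → ZMod p)
    (hloc : IsLvlCoboundary₂ ((pullbackLevelSys loc).restrict
        (mackeySubgroup loc K.fixingSubgroup h) hopen)
      (fun z => x (mackeyLoc loc K.fixingSubgroup h z.1,
        mackeyLoc loc K.fixingSubgroup h z.2))) :
    IsLocTrivAt K A x := by
  classical
  obtain ⟨x', ⟨M', ⟨L, ⟨-, -, F₀, hF₀, hF₀L⟩, -, rfl⟩, hx'inv⟩, hx'⟩ := hloc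
  haveI := hF₀
  obtain ⟨F₁, hF₁fin, hle₁, hF₁n, -⟩ := gaf_exists_normal F₀
  have hF₁F₀ : F₁.fixingSubgroup ≤ F₀.fixingSubgroup :=
    IntermediateField.fixingSubgroup_antitone hle₁
  let y : GalL K → ZMod p := fun n =>
    if hn : ∃ γ : mackeySubgroup loc K.fixingSubgroup h,
        mackeyLoc loc K.fixingSubgroup h γ = n then x' (Classical.choose hn) else 0
  have hyγ : ∀ γ : mackeySubgroup loc K.fixingSubgroup h,
      y (mackeyLoc loc K.fixingSubgroup h γ) = x' γ := by
    intro γ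
    have hn : ∃ γ' : mackeySubgroup loc K.fixingSubgroup h,
        mackeyLoc loc K.fixingSubgroup h γ' = mackeyLoc loc K.fixingSubgroup h γ := ⟨γ, rfl⟩
    show (if hn : _ then x' (Classical.choose hn) else 0) = x' γ
    rw [dif_pos hn]
    exact congrArg x' (gaf_mackeyLoc_injective loc K h hinj (Classical.choose_spec hn))
  refine ⟨y, ⟨F₁, hF₁fin, ?_⟩, ?_⟩
  · intro g1 n hg1 hn hnF
    obtain ⟨γ, rfl⟩ := gaf_mackeyLoc_surj loc K h A hD g1 hg1
    obtain ⟨ν, rfl⟩ := gaf_mackeyLoc_surj loc K h A hD n hn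
    rw [← map_mul, hyγ, hyγ]
    refine hx'inv γ ν ?_
    rw [Subgroup.mem_subgroupOf]
    apply hF₀L
    rw [Subgroup.mem_comap]
    apply hF₁F₀
    have h1 : h⁻¹ * (h * loc ν.1 * h⁻¹) * h⁻¹⁻¹ ∈ F₁.fixingSubgroup :=
      hF₁n.conj_mem _ hnF h⁻¹
    have h2 : h⁻¹ * (h * loc ν.1 * h⁻¹) * h⁻¹⁻¹ = loc ν.1 := by group
    rw [h2] at h1
    exact h1
  · intro g1 h1 hg1 hh1
    obtain ⟨γ, rfl⟩ := gaf_mackeyLoc_surj loc K h A hD g1 hg1
    obtain ⟨δ, rfl⟩ := gaf_mackeyLoc_surj loc K h A hD h1 hh1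
    rw [← map_mul, hyγ, hyγ, hyγ]
    exact (hx' γ δ).symm

end loc

/-! ### The dictionary -/

/-- **GA-FIELD** (row 964): the realisation statement in FIELD language gives the realisation
statement in U-language. -/
theorem bdPairsU_of_field (hPair : PairRealCofStatement) : BdPairsUStatement := by
  intro p _ hp2 S hpS hχ N₀ hN₀
  obtain ⟨K₀, hK₀, hK₀N₀⟩ := Fermat.Agent.H21.Cft.exists_unramified_field_of_level S hN₀
  obtain ⟨K, hle, hK, hstab, hμ, hpair⟩ := hPair p hp2 S hpS K₀ hK₀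
  have hN : K.fixingSubgroup ∈ (globalLevelSys S).sets := gaf_fixing_mem_level S K hK hstab
  have hKn : K.fixingSubgroup.Normal := gaf_fixing_normal K hstab
  refine ⟨K.fixingSubgroup, hN, ?_, fun s hs => gaf_cyclo_trivial p K hμ s hs, ?_⟩
  · rw [← hK₀N₀]
    exact IntermediateField.fixingSubgroup_antitone hle
  intro g g' hgg'
  have hA₁ : (g • gafPlace (pPrime p)).LiesOverPrime p :=
    Fermat.Agent.H96.Cft.liesOverPrime_smul g (gaf_place_liesOver (pPrime p))
  have hA₂ : (g' • gafPlace (pPrime p)).LiesOverPrime p :=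
    Fermat.Agent.H96.Cft.liesOverPrime_smul g' (gaf_place_liesOver (pPrime p))
  have hne : ¬ SamePlaceOver K (g • gafPlace (pPrime p)) (g' • gafPlace (pPrime p)) :=
    fun hso => hgg' (gaf_samePlace_of_over p S hχ K ⟨pPrime p, hpS⟩ g g' hso)
  obtain ⟨x, hxc, hxl, hxloc, hxn⟩ := hpair _ _ hA₁ hA₂ hne
  refine ⟨x, gaf_isLvl₂ S K hK _ hxl, gaf_trivCocycle hxc, ?_, ?_⟩
  · intro v h hvh
    refine gaf_locTriv_of_at (primeLocalToGlobal v.1) K h (h • gafPlace v.1)
      (gaf_mem_decomp_iff v.1 h) _ hK.1 hKn x ?_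
    refine hxloc v.1 v.2 _ (Fermat.Agent.H96.Cft.liesOverPrime_smul h (gaf_place_liesOver v.1))
      ?_ ?_
    · by_cases hv : v = ⟨pPrime p, hpS⟩
      · subst hv
        rcases hvh with hvh | hvh
        · exact absurd rfl hvh
        · exact fun hso => hvh.1 (gaf_samePlace_of_over p S hχ K ⟨pPrime p, hpS⟩ g h hso)
      · exact gaf_not_over_of_ne K (fun heq => hv (Subtype.ext heq.symm)) g h
    · by_cases hv : v = ⟨pPrime p, hpS⟩
      · subst hv
        rcases hvh with hvh | hvh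
        · exact absurd rfl hvh
        · exact fun hso => hvh.2 (gaf_samePlace_of_over p S hχ K ⟨pPrime p, hpS⟩ g' h hso)
      · exact gaf_not_over_of_ne K (fun heq => hv (Subtype.ext heq.symm)) g' h
  · rintro ⟨h1, h2⟩
    exact hxn ⟨gaf_at_of_locTriv (primeLocalToGlobal (pPrime p)) K g (g • gafPlace (pPrime p))
        (gaf_mem_decomp_iff (pPrime p) g) _ (gaf_loc_injective (pPrime p)) x h1,
      gaf_at_of_locTriv (primeLocalToGlobal (pPrime p)) K g' (g' • gafPlace (pPrime p))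
        (gaf_mem_decomp_iff (pPrime p) g') _ (gaf_loc_injective (pPrime p)) x h2⟩

end Fermat.Agent.H19.GaField
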