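/-
P-CFT, shared dictionary FIELD language ↔ U-language (helper19; consumers: row 965 GC-FIELD of
helper79, [GC-1] of helper54).

* `placeSurj : Fermat.Agent.H54.Cft.PlaceSurjStatement` : every place of `ℚ̄` over `q` is
  `g • A_q`;
* `placeDict : Fermat.Agent.H54.Cft.PlaceDictStatement` : for `U = G_L` (any `L` whose fixing
  subgroup contains an `S`-level), `IsLocTriv₂ … c ⟨q, _⟩ g ↔ IsLocTrivAt L (g • A_q) c`;
* `sha2Dict : Fermat.Agent.H79.GC.Sha2DictStatement` : the cochain dictionary of helper79.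
-/
import Fermat.Agent.H19.Cft.GaField
import Fermat.Agent.H54.Cft.GCFieldInterfaces
import Fermat.Agent.H79.GC.Interfaces
import Fermat.Agent.H95.FF.PlaceDense

set_option autoImplicit false
set_option linter.style.haveILetI false

open CategoryTheory ExtCitation IntermediateField
open scoped Pointwise

namespace Fermat.Agent.H19.GaField

open Fermat.Agent.H13.Cft
open Fermat.Agent.H54.Cft hiding GQ
open Fermat.Agent.H76.Cft hiding GQ
open Fermat.Agent.H97.Shap Fermat.Agent.H78.CFT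

/-! ### (C') all places over `q` are conjugate -/

/-- Every place of `ℚ̄` over `q` is a conjugate of the standard one. -/
theorem gaf_exists_smul_eq (q : Nat.Primes) (A : ValuationSubring Qbar)
    (hA : A.LiesOverPrime (q : ℕ)) : ∃ g : GQ, A = g • gafPlace q := by
  have hA₀ : (gafPlace q).LiesOverPrime (q : ℕ) := gaf_place_liesOver q
  have hAA' : ∀ y ∈ (⊥ : IntermediateField ℚ (AlgebraicClosure ℚ)),
      y ∈ A ↔ y ∈ gafPlace q := by
    intro y hy
    obtain ⟨r, rfl⟩ := IntermediateField.mem_bot.1 hy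
    have e : algebraMap ℚ (AlgebraicClosure ℚ) r = ((r : ℚ) : AlgebraicClosure ℚ) :=
      (eq_ratCast _ r)
    rw [e, Fermat.Agent.H95.FF.placeDense_ratCast_mem_iff A q.2 hA,
      Fermat.Agent.H95.FF.placeDense_ratCast_mem_iff _ q.2 hA₀]
  obtain ⟨ρ, -, hρ⟩ :=
    Fermat.Agent.H53.transitiveStatement ⊥ (gafPlace q) A (q : ℕ) q.2 hA₀ hAA'
  refine ⟨ρ⁻¹, ?_⟩
  ext x
  rw [ValuationSubring.mem_pointwise_smul_iff_inv_smul_mem, inv_inv]
  exact hρ x

/-- **(C')** of helper54's `GCFieldInterfaces`. -/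
theorem placeSurj : Fermat.Agent.H54.Cft.PlaceSurjStatement :=
  fun q A hA => gaf_exists_smul_eq q A hA

/-! ### FIELD → U without normality -/

section loc

variable {Γ : Type} [Group Γ] (loc : Γ →* GQ) (K : IntermediateField ℚ Qbar) (h : GQ)
  (A : ValuationSubring Qbar)
  (hD : ∀ σ : GQ, σ ∈ A.decompositionSubgroup ℚ ↔ ∃ γ : Γ, h * loc γ * h⁻¹ = σ)
  (hopen : ∃ N ∈ (pullbackLevelSys loc).sets, N ≤ mackeySubgroup loc K.fixingSubgroup h)

include hD in
/-- FIELD → U for a general `K` whose fixing subgroup contains the fixing subgroup of a finite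
extension `F₀` of `ℚ`. -/
theorem gaf_locTriv_of_at_gen (F₀ : IntermediateField ℚ Qbar) (hF₀ : FiniteDimensional ℚ F₀)
    (hF₀K : F₀.fixingSubgroup ≤ K.fixingSubgroup)
    {p : ℕ} (x : GalL K × GalL K → ZMod p) (hat : IsLocTrivAt K A x) :
    IsLvlCoboundary₂ ((pullbackLevelSys loc).restrict (mackeySubgroup loc K.fixingSubgroup h)
        hopen)
      (fun z => x (mackeyLoc loc K.fixingSubgroup h z.1,
        mackeyLoc loc K.fixingSubgroup h z.2)) := by
  obtain ⟨y, ⟨F, hF, hyF⟩, hy⟩ := hat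
  haveI := hF
  haveI := hF₀
  haveI : FiniteDimensional ℚ (F ⊔ F₀ : IntermediateField ℚ Qbar) :=
    IntermediateField.finiteDimensional_sup F F₀
  obtain ⟨F', hF'fin, hle, hF'n, hF'fi⟩ := gaf_exists_normal (F ⊔ F₀)
  have hF'F : F'.fixingSubgroup ≤ F.fixingSubgroup :=
    IntermediateField.fixingSubgroup_antitone (le_sup_left.trans hle)
  have hF'K : F'.fixingSubgroup ≤ K.fixingSubgroup :=
    (IntermediateField.fixingSubgroup_antitone (le_sup_right.trans hle)).trans hF₀K
  refine ⟨fun γ => y (mackeyLoc loc K.fixingSubgroup h γ), ?_, ?_⟩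
  · refine ⟨(F'.fixingSubgroup.comap loc).subgroupOf (mackeySubgroup loc K.fixingSubgroup h),
      ⟨F'.fixingSubgroup.comap loc, gaf_comap_mem_pullback loc F' hF'fin hF'n hF'fi, ?_, rfl⟩,
      ?_⟩
    · intro γ hγ
      rw [mem_mackeySubgroup]
      exact hF'K (hF'n.conj_mem _ (Subgroup.mem_comap.1 hγ) h)
    · intro γ ν hν
      show y (mackeyLoc loc K.fixingSubgroup h (γ * ν)) =
        y (mackeyLoc loc K.fixingSubgroup h γ)
      rw [map_mul]
      refine hyF _ _ (gaf_mackeyLoc_mem_decomp loc K h A hD γ)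
        (gaf_mackeyLoc_mem_decomp loc K h A hD ν) ?_
      have h1 : loc ν.1 ∈ F'.fixingSubgroup :=
        Subgroup.mem_comap.1 (Subgroup.mem_subgroupOf.1 hν)
      exact hF'F (hF'n.conj_mem _ h1 h)
  · intro γ δ
    show y (mackeyLoc loc K.fixingSubgroup h δ) -
        y (mackeyLoc loc K.fixingSubgroup h (γ * δ)) +
        y (mackeyLoc loc K.fixingSubgroup h γ) =
      x (mackeyLoc loc K.fixingSubgroup h γ, mackeyLoc loc K.fixingSubgroup h δ)
    rw [map_mul]
    exact (hy _ _ (gaf_mackeyLoc_mem_decomp loc K h A hD γ)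
      (gaf_mackeyLoc_mem_decomp loc K h A hD δ)).symm

end loc

/-! ### (C) the place dictionary -/

/-- **(C)** of helper54's `GCFieldInterfaces`: `U`-language local triviality at `(q, g)` is
field-language local triviality at the place `g • A_q`. -/
theorem placeDict : Fermat.Agent.H54.Cft.PlaceDictStatement := by
  intro p _ S hχ L hU c v g
  constructor
  · intro hloc
    exact gaf_at_of_locTriv (primeLocalToGlobal v.1) L g (g • gafPlace v.1)
      (gaf_mem_decomp_iff v.1 g) _ (gaf_loc_injective v.1) c hloc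
  · intro hat
    obtain ⟨N, ⟨-, -, ⟨F₀, hF₀, hF₀N⟩, -⟩, hNL⟩ := hU
    exact gaf_locTriv_of_at_gen (primeLocalToGlobal v.1) L g (g • gafPlace v.1)
      (gaf_mem_decomp_iff v.1 g) _ F₀ hF₀ (hF₀N.trans hNL) c hat

/-! ### The cochain dictionary of row 965 -/

/-- Levels: a level function of the restricted level system is an `S`-level function. -/
theorem gaf_isSLvl₂_of_isLvl₂ (S : Finset Nat.Primes) (L : IntermediateField ℚ Qbar)
    (hL : ∃ N ∈ (globalLevelSys S).sets, N ≤ L.fixingSubgroup) {X : Type} [AddCommGroup X]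
    {c : GalL L × GalL L → X}
    (hc : IsLvl₂ ((globalLevelSys S).restrict L.fixingSubgroup hL) c) : IsSLvl₂ S L c := by
  obtain ⟨N', ⟨N, hN, -, rfl⟩, hcN⟩ := hc
  obtain ⟨F, hF, hFN⟩ := Fermat.Agent.H21.Cft.exists_unramified_field_of_level S hN
  refine ⟨F, hF, fun g k n m hn hm => hcN g k n ?_ m ?_⟩
  · rw [Subgroup.mem_subgroupOf, ← hFN]
    exact hn
  · rw [Subgroup.mem_subgroupOf, ← hFN]
    exact hm

/-- Levels, degree one: an `S`-level function is a level function of the restricted system. -/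
theorem gaf_isLvl₁_of_isSLvl₁ (S : Finset Nat.Primes) (L : IntermediateField ℚ Qbar)
    (hL : ∃ N ∈ (globalLevelSys S).sets, N ≤ L.fixingSubgroup) {X : Type} [AddCommGroup X]
    {y : GalL L → X} (hy : IsSLvl₁ S L y) :
    IsLvl₁ ((globalLevelSys S).restrict L.fixingSubgroup hL) y := by
  obtain ⟨F, hF, hyF⟩ := hy
  obtain ⟨N₀, hN₀, hN₀L⟩ := hL
  obtain ⟨N₁, hN₁, hN₁F⟩ := Fermat.Agent.H21.Cft.exists_level_le_fixingSubgroup S hF
  obtain ⟨N, hN, hNle⟩ := (globalLevelSys S).directed N₀ hN₀ N₁ hN₁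
  refine ⟨N.subgroupOf L.fixingSubgroup,
    ⟨N, hN, (hNle.trans inf_le_left).trans hN₀L, rfl⟩, fun g n hn => hyF g n ?_⟩
  exact hN₁F ((hNle.trans inf_le_right) (Subgroup.mem_subgroupOf.1 hn))

/-- Levels, degree one, converse. -/
theorem gaf_isSLvl₁_of_isLvl₁ (S : Finset Nat.Primes) (L : IntermediateField ℚ Qbar)
    (hL : ∃ N ∈ (globalLevelSys S).sets, N ≤ L.fixingSubgroup) {X : Type} [AddCommGroup X]
    {y : GalL L → X}
    (hy : IsLvl₁ ((globalLevelSys S).restrict L.fixingSubgroup hL) y) : IsSLvl₁ S L y := by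
  obtain ⟨N', ⟨N, hN, -, rfl⟩, hyN⟩ := hy
  obtain ⟨F, hF, hFN⟩ := Fermat.Agent.H21.Cft.exists_unramified_field_of_level S hN
  refine ⟨F, hF, fun g n hn => hyN g n ?_⟩
  rw [Subgroup.mem_subgroupOf, ← hFN]
  exact hn

/-- Levels, degree two: an `S`-level function is a level function of the restricted system
(no hypothesis on `L` beyond `hL`). -/
theorem gaf_isLvl₂_of_isSLvl₂ (S : Finset Nat.Primes) (L : IntermediateField ℚ Qbar)
    (hL : ∃ N ∈ (globalLevelSys S).sets, N ≤ L.fixingSubgroup) {X : Type} [AddCommGroup X]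
    {c : GalL L × GalL L → X} (hc : IsSLvl₂ S L c) :
    IsLvl₂ ((globalLevelSys S).restrict L.fixingSubgroup hL) c := by
  obtain ⟨F, hF, hcF⟩ := hc
  obtain ⟨N₀, hN₀, hN₀L⟩ := hL
  obtain ⟨N₁, hN₁, hN₁F⟩ := Fermat.Agent.H21.Cft.exists_level_le_fixingSubgroup S hF
  obtain ⟨N, hN, hNle⟩ := (globalLevelSys S).directed N₀ hN₀ N₁ hN₁
  refine ⟨N.subgroupOf L.fixingSubgroup,
    ⟨N, hN, (hNle.trans inf_le_left).trans hN₀L, rfl⟩,
    fun g k n hn m hm => hcF g k n m ?_ ?_⟩
  · exact hN₁F ((hNle.trans inf_le_right) (Subgroup.mem_subgroupOf.1 hn))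
  · exact hN₁F ((hNle.trans inf_le_right) (Subgroup.mem_subgroupOf.1 hm))

/-- Cocycles: helper78's convention gives helper54's. -/
theorem gaf_cocycle_of_triv {G : Type} [Group G] {p : ℕ} {x : G × G → ZMod p}
    (hx : IsTrivCocycle₂ x) : Fermat.Agent.H54.Cft.IsCocycle₂ x := by
  intro g h j
  have := hx g h j
  linear_combination -this

/-- Coboundaries: `S`-cohomologous cochains differ by a level coboundary. -/
theorem gaf_coboundary_of_cohomologous (S : Finset Nat.Primes)
    (L : IntermediateField ℚ Qbar)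
    (hL : ∃ N ∈ (globalLevelSys S).sets, N ≤ L.fixingSubgroup) {p : ℕ}
    {c r : GalL L × GalL L → ZMod p} (hcr : IsSCohomologous₂ S L c r) :
    IsLvlCoboundary₂ ((globalLevelSys S).restrict L.fixingSubgroup hL)
      (fun x => c x - r x) := by
  obtain ⟨y, hy, hcy⟩ := hcr
  refine ⟨y, gaf_isLvl₁_of_isSLvl₁ S L hL hy, fun g k => ?_⟩
  show y k - y (g * k) + y g = c (g, k) - r (g, k)
  rw [hcy g k]
  ring

/-- Coboundaries, converse. -/
theorem gaf_cohomologous_of_coboundary (S : Finset Nat.Primes)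
    (L : IntermediateField ℚ Qbar)
    (hL : ∃ N ∈ (globalLevelSys S).sets, N ≤ L.fixingSubgroup) {p : ℕ}
    {c r : GalL L × GalL L → ZMod p}
    (hcr : IsLvlCoboundary₂ ((globalLevelSys S).restrict L.fixingSubgroup hL)
      (fun x => c x - r x)) : IsSCohomologous₂ S L c r := by
  obtain ⟨y, hy, hcy⟩ := hcr
  refine ⟨y, gaf_isSLvl₁_of_isLvl₁ S L hL hy, fun g k => ?_⟩
  have := hcy g k
  simp only at this
  rw [this]
  ring

/-- U → FIELD local triviality at EVERY place over a prime of `S`. -/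
theorem gaf_locTrivAt_of_all (p : ℕ) [Fact p.Prime] (S : Finset Nat.Primes)
    (hχ : ∃ N ∈ (globalLevelSys S).sets, ∀ s ∈ N, cycloChar p s = 1)
    (L : IntermediateField ℚ Qbar)
    (hL : ∃ N ∈ (globalLevelSys S).sets, N ≤ L.fixingSubgroup)
    (c : GalL L × GalL L → ZMod p)
    (hloc : ∀ (v : (arithDatumQ p S hχ).ι) (g : GQ),
      IsLocTriv₂ (arithDatumQ p S hχ) L.fixingSubgroup hL c v g)
    (q : Nat.Primes) (hq : q ∈ S) (A : ValuationSubring Qbar)
    (hA : A.LiesOverPrime (q : ℕ)) : IsLocTrivAt L A c := by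
  obtain ⟨g, rfl⟩ := gaf_exists_smul_eq q A hA
  exact gaf_at_of_locTriv (primeLocalToGlobal q) L g (g • gafPlace q)
    (gaf_mem_decomp_iff q g) _ (gaf_loc_injective q) c (hloc ⟨q, hq⟩ g)

/-- FIELD → U local triviality at every place `(v, g)`. -/
theorem gaf_locTriv_of_all_at (p : ℕ) [Fact p.Prime] (S : Finset Nat.Primes)
    (hχ : ∃ N ∈ (globalLevelSys S).sets, ∀ s ∈ N, cycloChar p s = 1)
    (L : IntermediateField ℚ Qbar)
    (hL : ∃ N ∈ (globalLevelSys S).sets, N ≤ L.fixingSubgroup)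
    (c : GalL L × GalL L → ZMod p)
    (hat : ∀ (q : Nat.Primes), q ∈ S → ∀ A : ValuationSubring Qbar,
      A.LiesOverPrime (q : ℕ) → IsLocTrivAt L A c)
    (v : (arithDatumQ p S hχ).ι) (g : GQ) :
    IsLocTriv₂ (arithDatumQ p S hχ) L.fixingSubgroup hL c v g :=
  (placeDict p S hχ L hL c v g).2
    (hat v.1 v.2 _ (Fermat.Agent.H96.Cft.liesOverPrime_smul g (gaf_place_liesOver v.1)))

/-- **[GC-C]** the cochain dictionary of row 965 (helper79). -/
theorem sha2Dict : Fermat.Agent.H79.GC.Sha2DictStatement := by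
  intro p _ S hχ L hL c
  exact ⟨gaf_isSLvl₂_of_isLvl₂ S L hL, gaf_cocycle_of_triv,
    fun hloc q hq A hA => gaf_locTrivAt_of_all p S hχ L hL c hloc q hq A hA,
    fun r hcr => gaf_coboundary_of_cohomologous S L hL hcr⟩

end Fermat.Agent.H19.GaField
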