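/-
P-CFT row 842 (CM-CHASE, owner helper19; sub-lead helper43).

`layerChase : Fermat.Agent.H43.Cft.LayerChaseStatement` — the elementary diagram chase on a short
exact sequence `0 → A → J → C → 0` of `Rep ℤ H`: the layer hypotheses (Hilbert 90 for `A`,
semilocal Hilbert 90 for `J`, Hasse norm theorem, second inequality) give the layer conclusions
for `C`.
-/
import Fermat.Agent.H43.Cft.ClassModule

set_option autoImplicit false

noncomputable section

namespace Fermat.Agent.H19.Cft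

open CategoryTheory Fermat.Agent.H43.Cft

section basics

variable {H : Type} [Group H]

theorem lc_rho_mul {k : Type} [Ring k] (M : Rep.{0} k H) (a b : H) (x : M) :
    M.ρ (a * b) x = M.ρ a (M.ρ b x) := by
  rw [map_mul, Module.End.mul_apply]

theorem lc_rho_one {k : Type} [Ring k] (M : Rep.{0} k H) (x : M) : M.ρ 1 x = x := by
  rw [map_one, Module.End.one_apply]

/-- Morphisms preserve fixed vectors. -/
theorem lc_fixed_map {M M' : Rep.{0} ℤ H} (φ : M ⟶ M') {V : Subgroup H} {m : M}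
    (hm : IsFixedBy M V m) : IsFixedBy M' V (φ.hom m) := by
  intro v hv
  rw [← Rep.hom_comm_apply, hm v hv]

/-- Morphisms commute with the `σ`-norm. -/
theorem lc_norm_map {M M' : Rep.{0} ℤ H} (φ : M ⟶ M') (p : ℕ) (σ : H) (m : M) :
    φ.hom (sigmaNorm M p σ m) = sigmaNorm M' p σ (φ.hom m) := by
  unfold sigmaNorm
  rw [map_sum]
  refine Finset.sum_congr rfl fun k _ => ?_
  exact Rep.hom_comm_apply φ _ _

theorem lc_fixed_sub {M : Rep.{0} ℤ H} {V : Subgroup H} {m m' : M}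
    (hm : IsFixedBy M V m) (hm' : IsFixedBy M V m') : IsFixedBy M V (m - m') := by
  intro v hv
  rw [map_sub, hm v hv, hm' v hv]

theorem lc_norm_sub (M : Rep.{0} ℤ H) (p : ℕ) (σ : H) (m m' : M) :
    sigmaNorm M p σ (m - m') = sigmaNorm M p σ m - sigmaNorm M p σ m' := by
  unfold sigmaNorm
  rw [← Finset.sum_sub_distrib]
  refine Finset.sum_congr rfl fun k _ => ?_
  rw [map_sub]

/-- The stabiliser of a vector, as a subgroup. -/
def lcStab (M : Rep.{0} ℤ H) (x : M) : Subgroup H where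
  carrier := {h | M.ρ h x = x}
  one_mem' := lc_rho_one M x
  mul_mem' := by
    intro a b ha hb
    have ha' : M.ρ a x = x := ha
    have hb' : M.ρ b x = x := hb
    show M.ρ (a * b) x = x
    rw [lc_rho_mul, hb', ha']
  inv_mem' := by
    intro a ha
    have ha' : M.ρ a x = x := ha
    show M.ρ a⁻¹ x = x
    calc M.ρ a⁻¹ x = M.ρ a⁻¹ (M.ρ a x) := by rw [ha']
      _ = x := by
        rw [← lc_rho_mul, inv_mul_cancel, lc_rho_one]

theorem lc_mem_stab {M : Rep.{0} ℤ H} {x : M} {h : H} : h ∈ lcStab M x ↔ M.ρ h x = x :=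
  Iff.rfl

/-- Structure of a cyclic layer: `σ ^ p ∈ V` and every `u ∈ U` is `σ ^ i * v`. -/
theorem lc_layer_aux {p : ℕ} (hp : p.Prime) {U V : Subgroup H} {σ : H}
    (hL : IsLayer p U V σ) :
    σ ^ p ∈ V ∧ ∀ u ∈ U, ∃ i : ℤ, (σ ^ i)⁻¹ * u ∈ V := by
  have : Fact p.Prime := ⟨hp⟩
  have hN : (V.subgroupOf U).Normal :=
    (Subgroup.normal_subgroupOf_iff hL.le).mpr fun h k hh hk => hL.normal k hk h hh
  have hcard : Nat.card (U ⧸ V.subgroupOf U) = p := by
    rw [← Subgroup.index_eq_card]; exact hL.index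
  have hσ1 : (QuotientGroup.mk (⟨σ, hL.mem⟩ : U) : U ⧸ V.subgroupOf U) ≠ 1 := by
    intro h
    rw [QuotientGroup.eq_one_iff] at h
    exact hL.notMem (Subgroup.mem_subgroupOf.mp h)
  constructor
  · have h1 : (QuotientGroup.mk (⟨σ, hL.mem⟩ : U) : U ⧸ V.subgroupOf U) ^ p = 1 := by
      have h0 := pow_card_eq_one' (x := (QuotientGroup.mk (⟨σ, hL.mem⟩ : U) : U ⧸ V.subgroupOf U))
      rwa [hcard] at h0
    rw [← QuotientGroup.mk_pow, QuotientGroup.eq_one_iff] at h1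
    have := Subgroup.mem_subgroupOf.mp h1
    simpa using this
  · intro u hu
    have hmem : (QuotientGroup.mk (⟨u, hu⟩ : U) : U ⧸ V.subgroupOf U) ∈
        Subgroup.zpowers (QuotientGroup.mk (⟨σ, hL.mem⟩ : U) : U ⧸ V.subgroupOf U) :=
      mem_zpowers_of_prime_card hcard hσ1
    obtain ⟨i, hi⟩ := Subgroup.mem_zpowers_iff.mp hmem
    refine ⟨i, ?_⟩
    rw [← QuotientGroup.mk_zpow] at hi
    have h2 := QuotientGroup.eq.mp hi
    have := Subgroup.mem_subgroupOf.mp h2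
    simpa using this

/-- **Lemma N**: the `σ`-norm of a `V`-fixed vector is `U`-fixed. -/
theorem lc_norm_fixed {p : ℕ} (hp : p.Prime) {U V : Subgroup H} {σ : H}
    (hL : IsLayer p U V σ) (M : Rep.{0} ℤ H) {m : M} (hm : IsFixedBy M V m) :
    IsFixedBy M U (sigmaNorm M p σ m) := by
  obtain ⟨hpow, hdec⟩ := lc_layer_aux hp hL
  have hσ : σ ∈ lcStab M (sigmaNorm M p σ m) := by
    rw [lc_mem_stab]
    unfold sigmaNorm
    rw [map_sum]
    have hstep : ∀ k, M.ρ σ (M.ρ (σ ^ k) m) = M.ρ (σ ^ (k + 1)) m := by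
      intro k
      rw [pow_succ', lc_rho_mul]
    simp only [hstep]
    have e1 := Finset.sum_range_succ' (fun k => M.ρ (σ ^ k) m) p
    have e2 := Finset.sum_range_succ (fun k => M.ρ (σ ^ k) m) p
    have e3 : M.ρ (σ ^ p) m = M.ρ (σ ^ 0) m := by
      rw [hm _ hpow, pow_zero, lc_rho_one]
    have e4 := e1.symm.trans e2
    rw [e3] at e4
    exact add_right_cancel e4
  have hV : ∀ v ∈ V, v ∈ lcStab M (sigmaNorm M p σ m) := by
    intro v hv
    rw [lc_mem_stab]
    unfold sigmaNorm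
    rw [map_sum]
    refine Finset.sum_congr rfl fun k _ => ?_
    have hk : (σ ^ k)⁻¹ * v * ((σ ^ k)⁻¹)⁻¹ ∈ V :=
      hL.normal _ (U.inv_mem (U.pow_mem hL.mem k)) v hv
    have hcomm : v * σ ^ k = σ ^ k * ((σ ^ k)⁻¹ * v * ((σ ^ k)⁻¹)⁻¹) := by group
    rw [← lc_rho_mul, hcomm, lc_rho_mul, hm _ hk]
  intro u hu
  obtain ⟨i, hi⟩ := hdec u hu
  have hu' : u = σ ^ i * ((σ ^ i)⁻¹ * u) := by group
  have hmem : u ∈ lcStab M (sigmaNorm M p σ m) := by
    rw [hu']
    exact Subgroup.mul_mem _ (Subgroup.zpow_mem _ hσ i) (hV _ hi)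
  exact hmem

end basics

section exactgen

variable {H : Type} [Group H]

theorem lc_range_eq_ker {k : Type} [CommRing k] (X : ShortComplex (Rep.{0} k H))
    (hX : X.ShortExact) :
    LinearMap.range X.f.hom.toLinearMap = LinearMap.ker X.g.hom.toLinearMap :=
  (hX.exact.map (forget₂ (Rep k H) (ModuleCat k))).moduleCat_range_eq_ker

theorem lc_exact_gen {k : Type} [CommRing k] (X : ShortComplex (Rep.{0} k H))
    (hX : X.ShortExact) (j : X.X₂) : X.g.hom j = 0 ↔ ∃ a : X.X₁, X.f.hom a = j := by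
  have h := lc_range_eq_ker X hX
  constructor
  · intro hj
    have h' : j ∈ LinearMap.ker X.g.hom.toLinearMap := hj
    rw [← h] at h'
    exact h'
  · intro hj
    have h' : j ∈ LinearMap.range X.f.hom.toLinearMap := hj
    rw [h] at h'
    exact h'

end exactgen

section exact

variable {H : Type} [Group H] (X : ShortComplex (Rep.{0} ℤ H)) (hX : X.ShortExact)

include hX

theorem lc_inj : Function.Injective X.f.hom :=
  (Rep.mono_iff_injective X.f).1 hX.mono_f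

theorem lc_surj : Function.Surjective X.g.hom :=
  (Rep.epi_iff_surjective X.g).1 hX.epi_g

theorem lc_gf (a : X.X₁) : X.g.hom (X.f.hom a) = 0 :=
  (lc_exact_gen X hX (X.f.hom a)).mpr ⟨a, rfl⟩

theorem lc_exact (j : X.X₂) (hj : X.g.hom j = 0) : ∃ a : X.X₁, X.f.hom a = j :=
  (lc_exact_gen X hX j).mp hj

/-- **Lemma L**: invariants of `C` lift to invariants of `J` (by Hilbert 90 for `A`). -/
theorem lc_lift_fixed
    (h90 : ∀ (U : Subgroup H) (f : H → X.X₁),
      (∀ s ∈ U, ∀ t ∈ U, f (s * t) = X.X₁.ρ s (f t) + f s) →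
      ∃ a : X.X₁, ∀ s ∈ U, f s = X.X₁.ρ s a - a)
    (W : Subgroup H) (c : X.X₃) (hc : IsFixedBy X.X₃ W c) :
    ∃ j : X.X₂, IsFixedBy X.X₂ W j ∧ X.g.hom j = c := by
  classical
  obtain ⟨j0, hj0⟩ := lc_surj X hX c
  have hex : ∀ s : H, ∃ a : X.X₁, s ∈ W → X.f.hom a = X.X₂.ρ s j0 - j0 := by
    intro s
    by_cases hs : s ∈ W
    · have h0 : X.g.hom (X.X₂.ρ s j0 - j0) = 0 := by
        rw [map_sub, Rep.hom_comm_apply, hj0, hc s hs, sub_self]
      obtain ⟨a, ha⟩ := lc_exact X hX _ h0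
      exact ⟨a, fun _ => ha⟩
    · exact ⟨0, fun h => absurd h hs⟩
  choose a ha using hex
  have hcoc : ∀ s ∈ W, ∀ t ∈ W, a (s * t) = X.X₁.ρ s (a t) + a s := by
    intro s hs t ht
    apply lc_inj X hX
    rw [map_add, Rep.hom_comm_apply, ha _ (W.mul_mem hs ht), ha _ hs, ha _ ht, map_sub,
      lc_rho_mul]
    abel
  obtain ⟨a0, ha0⟩ := h90 W a hcoc
  refine ⟨j0 - X.f.hom a0, ?_, ?_⟩
  · intro s hs
    have h1 : X.f.hom (X.X₁.ρ s a0) = X.f.hom (a s) + X.f.hom a0 := by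
      rw [← map_add, ha0 s hs, sub_add_cancel]
    rw [map_sub, ← Rep.hom_comm_apply, h1, ha s hs]
    abel
  · rw [map_sub, lc_gf X hX, sub_zero, hj0]

end exact

/-- **CM-CHASE** (row 842). -/
theorem layerChase : LayerChaseStatement := by
  intro H _ X hX p hp hyp
  have hinj := lc_inj X hX
  refine ⟨?_, ?_⟩
  · -- `Ĥ⁻¹(U/V, C^V) = 0`
    intro U V σ hL c hc hNc
    obtain ⟨j, hj, hgj⟩ := lc_lift_fixed X hX hyp.h90 V c hc
    have h1 : X.g.hom (sigmaNorm X.X₂ p σ j) = 0 := by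
      rw [lc_norm_map, hgj, hNc]
    obtain ⟨a1, ha1⟩ := lc_exact X hX _ h1
    have ha1fix : IsFixedBy X.X₁ U a1 := by
      intro u hu
      apply hinj
      rw [Rep.hom_comm_apply, ha1]
      exact lc_norm_fixed hp hL X.X₂ hj u hu
    obtain ⟨b, hb, hNb⟩ := hyp.hasse U V σ hL a1 ha1fix ⟨j, hj, ha1.symm⟩
    have hj1fix : IsFixedBy X.X₂ V (j - X.f.hom b) := lc_fixed_sub hj (lc_fixed_map X.f hb)
    have hj1N : sigmaNorm X.X₂ p σ (j - X.f.hom b) = 0 := by
      rw [lc_norm_sub, ← lc_norm_map, hNb, ha1, sub_self]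
    obtain ⟨j', hj', hjj'⟩ := hyp.h1J U V σ hL _ hj1fix hj1N
    refine ⟨X.g.hom j', lc_fixed_map X.g hj', ?_⟩
    have h2 := congrArg X.g.hom hjj'
    rw [map_sub, lc_gf X hX, sub_zero, hgj, map_sub, Rep.hom_comm_apply] at h2
    exact h2
  · -- `C^U / N C^V` is generated by one element
    intro U V σ hL
    obtain ⟨j0, hj0, hsec⟩ := hyp.second U V σ hL
    refine ⟨X.g.hom j0, lc_fixed_map X.g hj0, ?_⟩
    intro c hc
    obtain ⟨j, hj, hgj⟩ := lc_lift_fixed X hX hyp.h90 U c hc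
    obtain ⟨k, a, j', ha, hj', hdec⟩ := hsec j hj
    refine ⟨k, X.g.hom j', lc_fixed_map X.g hj', ?_⟩
    rw [← hgj, hdec, map_add, map_add, map_zsmul, lc_gf X hX, add_zero, lc_norm_map]

end Fermat.Agent.H19.Cft

end
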